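import Mathlib
import Fermat.Agent.LT.T2.H437.USSpec

/-!
# Row LT, tower T2, leaf T2.03a.2b `H437.LevelNhdsC437` (registry row 1341, helper187)

OFF-MAIN.  Proof of the frozen Prop `Fermat.Agent.LT.T2.H437.LevelNhdsC437 K` of
`LT/T2/H437/USSpec.lean` (helper437, sha256 76bc96ee): for a nonzero ideal `𝔫` of `𝓞 K` the set of
`g ∈ GL₂(𝔸_K)` with `g ≡ 1` and `g⁻¹ ≡ 1 mod 𝔫` at every finite place is a neighbourhood of `1`.

## Proof

* `intRange_dense187`: `𝓞 K` is dense in `𝒪_v` (density of `K` in `K_v`, `𝒪_v` open,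
  `exists_valuation_sub_lt_of_integer`).
* `mul_mem_idealClosure187`: for `d ∈ 𝔫` and `y ∈ 𝒪_v`, `d * y ∈ idealClosure 𝔫 v`
  (multiplication by `d` is continuous and maps `𝓞 K` into `𝔫`).
* `intAdeles_isOpen187`: `Ô = {x ∈ 𝔸_f : x_v ∈ 𝒪_v for all v}` is open in the finite adeles
  (`RestrictedProduct.isOpen_forall_mem`).
* Fix `0 ≠ d ∈ 𝔫`.  The maps `g ↦ d⁻¹ * ((g - 1) i j)_f` and `g ↦ d⁻¹ * ((g⁻¹ - 1) i j)_f` from
  `GL₂(𝔸_K)` to `𝔸_f` are continuous and map `1` to `0`; the intersection of the preimages of `Ô`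
  is an open neighbourhood of `1` contained in the level set.
-/

set_option autoImplicit false

open IsDedekindDomain NumberField Topology
open Fermat.Agent.LT.H556.A0

noncomputable section

namespace Fermat.Agent.LT.T2.H187

variable {K : Type} [Field K] [NumberField K]

/-- `𝓞 K` is dense in `𝒪_v`. -/
theorem intRange_dense187 (v : HeightOneSpectrum (𝓞 K)) {y : v.adicCompletion K}
    (hy : Valued.v y ≤ 1) :
    y ∈ closure (Set.range
      (fun a : 𝓞 K => algebraMap K (v.adicCompletion K) (algebraMap (𝓞 K) K a))) := by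
  rw [mem_closure_iff_nhds]
  intro t ht
  obtain ⟨γ, hγ⟩ := Valued.mem_nhds.1 ht
  -- the precision, as an element of `ℤᵐ⁰`
  have hne : MonoidWithZeroHom.ValueGroup₀.embedding γ.1 ≠ 0 := by
    intro h0
    simp at h0
  -- the ball of radius `γ` around `y`, intersected with `𝒪_v`, is a neighbourhood of `y`
  have hB : {z : v.adicCompletion K | Valued.v.restrict (z - y) < γ.1} ∈ 𝓝 y :=
    Valued.mem_nhds.2 ⟨γ, subset_rfl⟩
  have hO : ((v.adicCompletionIntegers K : Set (v.adicCompletion K))) ∈ 𝓝 y :=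
    (Valued.isOpen_valuationSubring _).mem_nhds hy
  obtain ⟨z, ⟨hz1, hz2⟩, k, rfl⟩ :=
    mem_closure_iff_nhds.1 ((HeightOneSpectrum.denseRange_algebraMap K v) y) _
      (Filter.inter_mem hB hO)
  have hk1 : v.valuation K k ≤ 1 := by
    rw [← HeightOneSpectrum.valuedAdicCompletion_eq_valuation']
    exact hz2
  have hk2 : Valued.v (algebraMap K (v.adicCompletion K) k - y)
      < MonoidWithZeroHom.ValueGroup₀.embedding γ.1 :=
    (Valuation.restrict_lt_iff_lt_embedding _).1 hz1
  obtain ⟨a, ha⟩ := v.exists_valuation_sub_lt_of_integer hk1 (Units.mk0 _ hne)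
  refine ⟨algebraMap K (v.adicCompletion K) (algebraMap (𝓞 K) K a), hγ ?_, ⟨a, rfl⟩⟩
  show Valued.v.restrict (algebraMap K (v.adicCompletion K) (algebraMap (𝓞 K) K a) - y) < γ.1
  rw [Valuation.restrict_lt_iff_lt_embedding]
  have e : algebraMap K (v.adicCompletion K) (algebraMap (𝓞 K) K a) - y
      = algebraMap K (v.adicCompletion K) (algebraMap (𝓞 K) K a - k)
        + (algebraMap K (v.adicCompletion K) k - y) := by
    rw [map_sub]; ring
  rw [e]
  refine lt_of_le_of_lt (Valuation.map_add _ _ _) (max_lt ?_ hk2)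
  have := HeightOneSpectrum.valuedAdicCompletion_eq_valuation' v
    (algebraMap (𝓞 K) K a - k)
  rw [Units.val_mk0] at ha
  exact this ▸ ha

/-- `d 𝒪_v ⊆ 𝔫 𝒪_v` for `d ∈ 𝔫`. -/
theorem mul_mem_idealClosure187 (v : HeightOneSpectrum (𝓞 K)) (𝔫 : Ideal (𝓞 K)) {d : 𝓞 K}
    (hd : d ∈ 𝔫) {y : v.adicCompletion K} (hy : Valued.v y ≤ 1) :
    algebraMap K (v.adicCompletion K) (algebraMap (𝓞 K) K d) * y ∈ idealClosure 𝔫 v := by
  have h1 := Set.mem_image_of_mem
    (fun z : v.adicCompletion K => algebraMap K (v.adicCompletion K) (algebraMap (𝓞 K) K d) * z)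
    (intRange_dense187 v hy)
  have h2 := image_closure_subset_closure_image
    (f := fun z : v.adicCompletion K =>
      algebraMap K (v.adicCompletion K) (algebraMap (𝓞 K) K d) * z)
    (s := Set.range
      (fun a : 𝓞 K => algebraMap K (v.adicCompletion K) (algebraMap (𝓞 K) K a)))
    (continuous_const.mul continuous_id) h1
  refine closure_mono ?_ h2
  rintro _ ⟨_, ⟨a, rfl⟩, rfl⟩
  refine ⟨d * a, 𝔫.mul_mem_right a hd, ?_⟩
  simp only [map_mul]

/-- The integral finite adeles are open in the finite adeles. -/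
theorem intAdeles_isOpen187 (K : Type) [Field K] [NumberField K] :
    IsOpen {x : FiniteAdeleRing (𝓞 K) K | ∀ v : HeightOneSpectrum (𝓞 K),
      x v ∈ v.adicCompletionIntegers K} :=
  RestrictedProduct.isOpen_forall_mem
    (R := fun v : HeightOneSpectrum (𝓞 K) => v.adicCompletion K)
    (A := fun v : HeightOneSpectrum (𝓞 K) => v.adicCompletionIntegers K)
    (fun _ => Valued.isOpen_valuationSubring _)

/-- The scaled finite part of an adele: `x ↦ c * x_f`. -/
def scaledFin187 (c : K) (x : Adl K) : FiniteAdeleRing (𝓞 K) K :=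
  algebraMap K (FiniteAdeleRing (𝓞 K) K) c * x.2

theorem continuous_scaledFin187 (c : K) : Continuous (scaledFin187 (K := K) c) :=
  continuous_const.mul continuous_snd

/-- The entries of `finComp v g - 1` are the `v`-components of the entries of `g - 1`. -/
theorem finComp_sub_one187 (v : HeightOneSpectrum (𝓞 K)) (g : G K) (i j : Fin 2) :
    (finComp v g - 1) i j
      = ((g : Matrix (Fin 2) (Fin 2) (Adl K)) i j
          - (1 : Matrix (Fin 2) (Fin 2) (Adl K)) i j).2 v := by
  rw [Matrix.sub_apply]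
  by_cases h : i = j
  · subst h
    rw [Matrix.one_apply_eq, Matrix.one_apply_eq]
    rfl
  · rw [Matrix.one_apply_ne h, Matrix.one_apply_ne h]
    rfl

/-- **T2.03a.2b**: the finite level set is a neighbourhood of `1` in `GL₂(𝔸_K)`. -/
theorem levelNhdsC187 (K : Type) [Field K] [NumberField K] : H437.LevelNhdsC437 K := by
  intro 𝔫 h𝔫
  obtain ⟨d, hd, hd0⟩ := Submodule.exists_mem_ne_zero_of_ne_bot h𝔫
  have hdK : (algebraMap (𝓞 K) K d) ≠ 0 := by
    intro h
    exact hd0 ((FaithfulSMul.algebraMap_injective (𝓞 K) K) (by rw [h, map_zero]))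
  set c : K := (algebraMap (𝓞 K) K d)⁻¹ with hc
  -- the open set of integral finite adeles
  set U : Set (FiniteAdeleRing (𝓞 K) K) := {x | ∀ v : HeightOneSpectrum (𝓞 K),
      x v ∈ v.adicCompletionIntegers K} with hU
  have hUo : IsOpen U := intAdeles_isOpen187 K
  -- the entries of `g - 1` and of `g⁻¹ - 1`
  let φ : Fin 2 → Fin 2 → G K → FiniteAdeleRing (𝓞 K) K := fun i j g =>
    scaledFin187 c ((g : Matrix (Fin 2) (Fin 2) (Adl K)) i j
      - (1 : Matrix (Fin 2) (Fin 2) (Adl K)) i j)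
  let ψ : Fin 2 → Fin 2 → G K → FiniteAdeleRing (𝓞 K) K := fun i j g =>
    scaledFin187 c (((g⁻¹ : G K) : Matrix (Fin 2) (Fin 2) (Adl K)) i j
      - (1 : Matrix (Fin 2) (Fin 2) (Adl K)) i j)
  have hval : Continuous (fun g : G K => (g : Matrix (Fin 2) (Fin 2) (Adl K))) :=
    Units.continuous_val
  have hvalinv : Continuous
      (fun g : G K => ((g⁻¹ : G K) : Matrix (Fin 2) (Fin 2) (Adl K))) :=
    Units.continuous_coe_inv
  have hent : ∀ i j, Continuous
      (fun g : G K => (g : Matrix (Fin 2) (Fin 2) (Adl K)) i j) := fun i j =>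
    hval.matrix_elem i j
  have hinv : ∀ i j, Continuous
      (fun g : G K => ((g⁻¹ : G K) : Matrix (Fin 2) (Fin 2) (Adl K)) i j) := fun i j =>
    hvalinv.matrix_elem i j
  have hφc : ∀ i j, Continuous (φ i j) := fun i j =>
    (continuous_scaledFin187 c).comp ((hent i j).sub continuous_const)
  have hψc : ∀ i j, Continuous (ψ i j) := fun i j =>
    (continuous_scaledFin187 c).comp ((hinv i j).sub continuous_const)
  have h0U : (0 : FiniteAdeleRing (𝓞 K) K) ∈ U := fun v => by
    show (0 : v.adicCompletion K) ∈ v.adicCompletionIntegers K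
    exact zero_mem _
  have hz : scaledFin187 c (0 : Adl K) = 0 := by
    show algebraMap K (FiniteAdeleRing (𝓞 K) K) c * (0 : FiniteAdeleRing (𝓞 K) K) = 0
    exact mul_zero _
  have hφ1 : ∀ i j, φ i j 1 = 0 := fun i j => by
    show scaledFin187 c (((1 : G K) : Matrix (Fin 2) (Fin 2) (Adl K)) i j
      - (1 : Matrix (Fin 2) (Fin 2) (Adl K)) i j) = 0
    rw [Units.val_one, sub_self, hz]
  have hψ1 : ∀ i j, ψ i j 1 = 0 := fun i j => by
    show scaledFin187 c ((((1 : G K)⁻¹ : G K) : Matrix (Fin 2) (Fin 2) (Adl K)) i j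
      - (1 : Matrix (Fin 2) (Fin 2) (Adl K)) i j) = 0
    rw [inv_one, Units.val_one, sub_self, hz]
  -- the neighbourhood
  have hN : (⋂ i : Fin 2, ⋂ j : Fin 2, ((φ i j) ⁻¹' U ∩ (ψ i j) ⁻¹' U)) ∈ 𝓝 (1 : G K) := by
    refine (Filter.iInter_mem).2 fun i => (Filter.iInter_mem).2 fun j => Filter.inter_mem ?_ ?_
    · exact (hUo.preimage (hφc i j)).mem_nhds (by rw [Set.mem_preimage, hφ1]; exact h0U)
    · exact (hUo.preimage (hψc i j)).mem_nhds (by rw [Set.mem_preimage, hψ1]; exact h0U)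
  refine Filter.mem_of_superset hN ?_
  intro g hg v i j
  rw [Set.mem_iInter] at hg
  have hgij := Set.mem_iInter.1 (hg i) j
  -- the local statement
  have key : ∀ x : Adl K, scaledFin187 c x ∈ U → x.2 v ∈ idealClosure 𝔫 v := by
    intro x hx
    have hxv : Valued.v (algebraMap K (v.adicCompletion K) c * x.2 v) ≤ 1 := hx v
    have e : x.2 v = algebraMap K (v.adicCompletion K) (algebraMap (𝓞 K) K d)
        * (algebraMap K (v.adicCompletion K) c * x.2 v) := by
      rw [← mul_assoc, ← map_mul, hc, mul_inv_cancel₀ hdK, map_one, one_mul]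
    rw [e]
    exact mul_mem_idealClosure187 v 𝔫 hd hxv
  rw [finComp_sub_one187, finComp_sub_one187]
  exact ⟨key _ hgij.1, key _ hgij.2⟩

end Fermat.Agent.LT.T2.H187

end
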